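/-
KUMMER project (S10 + S11): Fermat's Last Theorem for the exponents 5, 7, 11, 13 via Kummer's
theorem, specialised to the case where the ring of integers of the `p`-th cyclotomic field is a
principal ideal domain.

This file only fixes the shared vocabulary.  It contains no `sorry`.
Packages:
  (A) `Fermat/Agent/Kummer/CaseI.lean`   : `Fermat.Agent.Kummer.caseI`
  (B) `Fermat/Agent/Kummer/CaseII.lean`  : `Fermat.Agent.Kummer.caseII`
  (C) `Fermat/Agent/Kummer/KummerLemma.lean` : `Fermat.Agent.Kummer.kummerLemmaHolds`
  (D) `Fermat/Agent/Kummer/PID.lean`     : `Fermat.Agent.Kummer.seven_pid`, `eleven_pid`,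
        `thirteen_pid`
  `Fermat/Agent/Kummer/Main.lean` assembles them.
-/
import Mathlib

set_option autoImplicit false

namespace Fermat.Agent.Kummer

open NumberField

/-- **Kummer's lemma** for a number field `K` (to be used with `K` the `p`-th cyclotomic field):
every unit of `𝓞 K` that is congruent to a rational integer modulo `p` is a `p`-th power of a
unit. -/
def KummerLemmaHolds (p : ℕ) (K : Type*) [Field K] [NumberField K] : Prop :=
  ∀ u : (𝓞 K)ˣ, (∃ n : ℤ, (p : 𝓞 K) ∣ (u : 𝓞 K) - (n : 𝓞 K)) → ∃ v : (𝓞 K)ˣ, u = v ^ p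

end Fermat.Agent.Kummer
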