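/-
Kummer project, package (A): case I of Fermat's Last Theorem for a prime `p ≥ 5` such that the
ring of integers of the `p`-th cyclotomic field is a principal ideal domain.
-/
import Fermat.Agent.Kummer.Defs
import Fermat.Agent.Kummer.CaseI.Basic

set_option autoImplicit false

namespace Fermat.Agent.Kummer

open NumberField

/-- **Case I** of Fermat's Last Theorem in the principal ideal domain case. -/
theorem caseI (p : ℕ) [Fact p.Prime] (hp5 : 5 ≤ p) (K : Type*) [Field K] [NumberField K]
    [IsCyclotomicExtension {p} ℚ K] [IsPrincipalIdealRing (𝓞 K)] {a b c : ℤ}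
    (hab : IsCoprime a b) (hpabc : ¬ (p : ℤ) ∣ a * b * c) : a ^ p + b ^ p ≠ c ^ p := by
  have hp : p.Prime := Fact.out
  by_cases hne : (p : ℤ) ∣ a - b
  · -- `a ≡ b mod p`: apply the main argument to the triple `(a, -c, -b)`.
    intro H
    have hodd : Odd p := hp.odd_of_ne_two (by omega)
    have hpos : 0 < p := hp.pos
    have hpa : ¬ (p : ℤ) ∣ a := fun h => hpabc (h.mul_right b |>.mul_right c)
    have hac : IsCoprime a (-c) := by
      have h1 : IsCoprime a (b ^ p) := hab.pow_right
      have h2 : IsCoprime a (b ^ p + a * a ^ (p - 1)) := h1.add_mul_left_right _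
      have h3 : b ^ p + a * a ^ (p - 1) = c ^ p := by
        rw [← pow_succ', Nat.sub_add_cancel hpos, add_comm]; exact H
      rw [h3] at h2
      exact (IsCoprime.pow_right_iff hpos).mp h2 |>.neg_right
    have hpacb : ¬ (p : ℤ) ∣ a * (-c) * (-b) := by
      intro h
      apply hpabc
      have : a * b * c = a * (-c) * (-b) := by ring
      rwa [this]
    have hne' : ¬ (p : ℤ) ∣ a - (-c) := by
      intro h
      have h1 := CaseI.dvd_add_sub_of_eq H
      have h3 : (p : ℤ) ∣ 3 * a := by
        have : 3 * a = (a + b - c) + (a - b) + (a - (-c)) := by ring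
        rw [this]
        exact dvd_add (dvd_add h1 hne) h
      rcases (Nat.prime_iff_prime_int.mp hp).dvd_or_dvd h3 with h4 | h4
      · have := Int.le_of_dvd (by norm_num) h4
        omega
      · exact hpa h4
    refine CaseI.caseI_aux p hp5 K hac hpacb hne' ?_
    rw [hodd.neg_pow, hodd.neg_pow, ← H]
    ring
  · exact CaseI.caseI_aux p hp5 K hab hpabc hne

end Fermat.Agent.Kummer
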