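-- Package (B) of the Kummer project: Case II for a prime `p ≥ 5` whose cyclotomic ring of
-- integers is a principal ideal domain in which Kummer's lemma holds.
import Fermat.Agent.Kummer.Defs
import Fermat.Agent.Kummer.CaseII.Instance

set_option autoImplicit false

namespace Fermat.Agent.Kummer

open NumberField

/-- (B) Case II. -/
theorem caseII (p : ℕ) [Fact p.Prime] (hp5 : 5 ≤ p) (K : Type*) [Field K] [NumberField K]
    [IsCyclotomicExtension {p} ℚ K] [IsPrincipalIdealRing (𝓞 K)] (hK : KummerLemmaHolds p K)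
    {a b c : ℤ} (hab : IsCoprime a b) (hc : c ≠ 0) (hpc : (p : ℤ) ∣ c) :
    a ^ p + b ^ p ≠ c ^ p := by
  intro H
  have hpp : p.Prime := Fact.out
  have hpZ : Prime (p : ℤ) := Nat.prime_iff_prime_int.mp hpp
  have : NeZero p := ⟨hpp.ne_zero⟩
  have hζ := IsCyclotomicExtension.zeta_spec p ℚ K
  have D := CaseII.descentData hζ (by omega) hK
  -- write `c = p ^ k * c'` with `p ∤ c'`
  have hfin : FiniteMultiplicity (p : ℤ) c :=
    Int.finiteMultiplicity_iff.mpr ⟨by simpa using hpp.ne_one, hc⟩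
  obtain ⟨c', hc', hpc'⟩ := hfin.exists_eq_pow_mul_and_not_dvd
  set k := multiplicity (p : ℤ) c with hk
  have hk1 : 1 ≤ k := by
    rcases Nat.eq_zero_or_pos k with h0 | h0
    · rw [h0, pow_zero, one_mul] at hc'
      exact absurd (hc' ▸ hpc) hpc'
    · exact h0
  -- `p ∤ b`
  have hpb : ¬ (p : ℤ) ∣ b := by
    intro hb
    have hpa : (p : ℤ) ∣ a := by
      have h1 : (p : ℤ) ∣ a ^ p := by
        have : a ^ p = c ^ p - b ^ p := by linarith
        rw [this]
        exact dvd_sub (dvd_pow hpc hpp.ne_zero) (dvd_pow hb hpp.ne_zero)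
      exact hpZ.dvd_of_dvd_pow h1
    exact hpZ.not_isUnit (hab.isUnit_of_dvd' hpa hb)
  obtain ⟨u, hu⟩ := D.assoc
  -- the generalised equation
  refine D.no_solution ((p - 1) * k) (Nat.mul_pos (by omega) hk1) (a : 𝓞 K) (b : 𝓞 K) (c' : 𝓞 K)
    (u ^ (k * p)) (IsCoprime.intCast hab) (fun h => hpb (D.int_dvd b h))
    (fun h => hpc' (D.int_dvd c' h)) ?_
  have H' : (a : 𝓞 K) ^ p + (b : 𝓞 K) ^ p = (c : 𝓞 K) ^ p := by exact_mod_cast congrArg (Int.cast : ℤ → 𝓞 K) H
  rw [H', hc']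
  push_cast
  rw [← hu]
  ring

end Fermat.Agent.Kummer
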