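/-
KUMMER project, package (C): Kummer's lemma in the PID case.  Assembly of the slices in `KL/`.
-/
import Fermat.Agent.Kummer.Defs
import Fermat.Agent.Kummer.KL.Reduce
import Fermat.Agent.Kummer.KL.Unramified
import Fermat.Agent.Kummer.KL.Hilbert94
import Fermat.Agent.Kummer.KL.Units92

set_option autoImplicit false

namespace Fermat.Agent.Kummer

open NumberField Module Polynomial

namespace KL

/-- There is no cyclic extension `L = K(x)`, `x ^ p = w`, of degree `p` of the `p`-th cyclotomic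
field `K` (with `𝓞 K` a PID) with `w` a unit congruent to `1` modulo `(ζ - 1) ^ p` which is not a
`p`-th power. -/
theorem false_of_kummer_extension {p : ℕ} [Fact p.Prime] (hp2 : p ≠ 2)
    {K : Type*} [Field K] [NumberField K] [IsCyclotomicExtension {p} ℚ K]
    [IsPrincipalIdealRing (𝓞 K)]
    {L : Type*} [Field L] [NumberField L] [Algebra K L] [IsGalois K L]
    {ζ : K} (hζ : IsPrimitiveRoot ζ p)
    (hpL : finrank K L = p) (σ : L ≃ₐ[K] L) (hσ : ∀ τ : L ≃ₐ[K] L, τ ∈ Subgroup.zpowers σ)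
    (w : (𝓞 K)ˣ) (hw1 : (hζ.toInteger - 1) ^ p ∣ (w : 𝓞 K) - 1)
    (hw : ¬ ∃ v : (𝓞 K)ˣ, w = v ^ p)
    (x : L) (hx : x ^ p = algebraMap K L ((w : 𝓞 K) : K)) (hxL : Algebra.adjoin K {x} = ⊤)
    (hσx : σ x = algebraMap K L ζ * x) : False := by
  have hpp : p.Prime := Fact.out
  have hp0 : p ≠ 0 := hpp.ne_zero
  -- `x` is integral
  have hwint : IsIntegral ℤ (algebraMap K L ((w : 𝓞 K) : K)) :=
    ((w : 𝓞 K).isIntegral_coe).algebraMap
  have hxint : IsIntegral ℤ x := by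
    refine IsIntegral.of_pow (Nat.pos_of_ne_zero hp0) ?_
    rw [hx]; exact hwint
  let x' : 𝓞 L := ⟨x, hxint⟩
  have hx' : x' ^ p = algebraMap (𝓞 K) (𝓞 L) (w : 𝓞 K) := by
    apply RingOfIntegers.ext
    change x ^ p = _
    rw [hx]
    rfl
  have hxunit : IsUnit x' := by
    have : IsUnit (x' ^ p) := by
      rw [hx']
      exact (w.isUnit).map (algebraMap (𝓞 K) (𝓞 L))
    exact (isUnit_pow_iff hp0).mp this
  obtain ⟨xu, hxu⟩ := hxunit
  have hσx' : σ • (xu : 𝓞 L) = algebraMap (𝓞 K) (𝓞 L) hζ.toInteger * (xu : 𝓞 L) := by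
    apply RingOfIntegers.ext
    rw [hxu]
    change σ x = _
    rw [hσx]
    rfl
  have hdiff := differentIdeal_eq_top_of_pow_dvd hp2 hζ w hw1 hpL x hx hxL
  obtain ⟨η, hη1, hη2⟩ := exists_unit_norm_eq_one_forall_ne hp2 hζ hpL σ hσ w hw xu
    (by rw [hxu]; exact hx') hσx'
  obtain ⟨ε, hε⟩ := exists_unit_mul_smul_eq_of_norm_eq_one hpL σ hσ hdiff η hη1
  exact hη2 ε hε

end KL

/-- (C) Kummer's lemma. -/
theorem kummerLemmaHolds (p : ℕ) [Fact p.Prime] (hp5 : 5 ≤ p) (K : Type*) [Field K] [NumberField K]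
    [IsCyclotomicExtension {p} ℚ K] [IsPrincipalIdealRing (𝓞 K)] : KummerLemmaHolds p K := by
  classical
  have hpp : p.Prime := Fact.out
  have hp0 : p ≠ 0 := hpp.ne_zero
  have hp2 : p ≠ 2 := by omega
  haveI : NeZero p := ⟨hp0⟩
  have hζ : IsPrimitiveRoot (IsCyclotomicExtension.zeta p ℚ K) p :=
    IsCyclotomicExtension.zeta_spec p ℚ K
  set ζ := IsCyclotomicExtension.zeta p ℚ K with hζdef
  rintro u ⟨n, hn⟩
  by_contra hcon
  -- reduce to `w = u ^ (p - 1)`
  set w : (𝓞 K)ˣ := u ^ (p - 1) with hwdef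
  have hw1 : (hζ.toInteger - 1) ^ p ∣ (w : 𝓞 K) - 1 :=
    KL.zeta_sub_one_pow_dvd_pow_sub_one hp2 hζ u n hn
  have hw : ¬ ∃ v : (𝓞 K)ˣ, w = v ^ p := by
    rintro ⟨v, hv⟩
    apply hcon
    refine ⟨u * v⁻¹, ?_⟩
    rw [mul_pow, inv_pow, ← hv, hwdef]
    have : u ^ p = u ^ (p - 1) * u := by
      conv_lhs => rw [show p = (p - 1) + 1 by omega, pow_succ]
    rw [this]
    simp
  -- `w` is not a `p`-th power in `K`
  have hwK : ∀ b : K, b ^ p ≠ ((w : 𝓞 K) : K) := by
    intro b hb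
    have hbint : IsIntegral ℤ b := by
      refine IsIntegral.of_pow (Nat.pos_of_ne_zero hp0) ?_
      rw [hb]; exact (w : 𝓞 K).isIntegral_coe
    let b' : 𝓞 K := ⟨b, hbint⟩
    have hb' : b' ^ p = (w : 𝓞 K) := by
      apply RingOfIntegers.ext
      exact hb
    have hbunit : IsUnit b' := by
      have : IsUnit (b' ^ p) := by rw [hb']; exact w.isUnit
      exact (isUnit_pow_iff hp0).mp this
    obtain ⟨v, hv⟩ := hbunit
    refine hw ⟨v, Units.ext ?_⟩
    calc ((w : (𝓞 K)ˣ) : 𝓞 K) = b' ^ p := hb'.symm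
      _ = (v : 𝓞 K) ^ p := by rw [hv]
      _ = ((v ^ p : (𝓞 K)ˣ) : 𝓞 K) := (Units.val_pow_eq_pow_val v p).symm
  have hirr : Irreducible (X ^ p - C (((w : 𝓞 K) : K))) :=
    X_pow_sub_C_irreducible_of_prime hpp hwK
  haveI := Fact.mk hirr
  let L := AdjoinRoot (X ^ p - C (((w : 𝓞 K) : K)))
  have hprim : (primitiveRoots p K).Nonempty :=
    ⟨ζ, (mem_primitiveRoots hpp.pos).mpr hζ⟩
  haveI : IsSplittingField K L (X ^ p - C (((w : 𝓞 K) : K))) :=
    isSplittingField_AdjoinRoot_X_pow_sub_C hprim hirr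
  haveI : FiniteDimensional K L := Polynomial.IsSplittingField.finiteDimensional L
    (X ^ p - C (((w : 𝓞 K) : K)))
  haveI : NumberField L := NumberField.of_module_finite K L
  haveI : IsGalois K L := isGalois_of_isSplittingField_X_pow_sub_C hprim hirr L
  have hpL : finrank K L = p := finrank_of_isSplittingField_X_pow_sub_C hprim hirr L
  let x : L := AdjoinRoot.root _
  have hx : x ^ p = algebraMap K L ((w : 𝓞 K) : K) := root_X_pow_sub_C_pow p _
  have hxL : Algebra.adjoin K {x} = ⊤ := AdjoinRoot.adjoinRoot_eq_top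
  let σ : L ≃ₐ[K] L := (autEquivZmod hirr L hζ).symm (Multiplicative.ofAdd 1)
  have hσx : σ x = algebraMap K L ζ * x := by
    have := autEquivZmod_symm_apply_natCast hirr L hx hζ 1
    simp only [Nat.cast_one, pow_one] at this
    rw [Algebra.smul_def] at this
    exact this
  have hσ : ∀ τ : L ≃ₐ[K] L, τ ∈ Subgroup.zpowers σ := by
    intro τ
    obtain ⟨m, hm⟩ : ∃ m : ZMod p, τ = (autEquivZmod hirr L hζ).symm (Multiplicative.ofAdd m) :=
      ⟨Multiplicative.toAdd (autEquivZmod hirr L hζ τ), by simp⟩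
    refine ⟨(m.val : ℤ), ?_⟩
    change σ ^ (m.val : ℤ) = τ
    rw [hm, zpow_natCast, ← map_pow]
    congr 1
    rw [← ofAdd_nsmul]
    congr 1
    simp
  exact KL.false_of_kummer_extension hp2 hζ hpL σ hσ w hw1 hw x hx hxL hσx

end Fermat.Agent.Kummer
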