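import Mathlib

/-!
# Class number one for small cyclotomic fields: common tools
-/

set_option autoImplicit false

namespace Fermat.Agent.Kummer.ClassNumberOne

open NumberField Polynomial InfinitePlace Nat Real Module Ideal IsCyclotomicExtension.Rat

theorem floor_bound_aux {x : ℝ} {B : ℕ} (hx0 : 0 ≤ x) (hx : x < B + 1) : ⌊x⌋₊ ≤ B := by
  have := (Nat.floor_lt hx0).mpr (by exact_mod_cast hx : x < ((B + 1 : ℕ) : ℝ))
  omega

/-- An unramified prime whose residue degree is large enough. -/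
theorem exists_primesOver_lt_pow (p ℓ B k : ℕ) [hp : Fact p.Prime] [hℓ : Fact ℓ.Prime]
    (K : Type*) [Field K] [NumberField K] [IsCyclotomicExtension {p} ℚ K]
    (hℓp : ℓ ≠ p) (hk : ∀ j < k, 0 < j → (ℓ : ZMod p) ^ j ≠ 1) (hB : B < ℓ ^ k) :
    ∃ P ∈ primesOver (span {(ℓ : ℤ)}) (𝓞 K),
      B < ℓ ^ P.inertiaDeg ℤ ∨ Submodule.IsPrincipal P := by
  have : NeZero p := ⟨hp.out.ne_zero⟩
  obtain ⟨⟨P, hP1, hP2⟩⟩ := (span {(ℓ : ℤ)}).nonempty_primesOver (S := 𝓞 K)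
  refine ⟨P, ⟨hP1, hP2⟩, Or.inl ?_⟩
  have hndvd : ¬ ℓ ∣ p := by
    intro h
    exact hℓp ((Nat.prime_dvd_prime_iff_eq hℓ.out hp.out).mp h)
  rw [inertiaDeg_eq_of_not_dvd ℓ K P hndvd]
  have hpos : 0 < orderOf (ℓ : ZMod p) := by
    apply orderOf_pos_iff.mpr
    have hcop : Nat.Coprime ℓ p := (Nat.coprime_primes hℓ.out hp.out).mpr hℓp
    exact (ZMod.unitOfCoprime ℓ hcop).isUnit.isOfFinOrder
  have hle : k ≤ orderOf (ℓ : ZMod p) := by
    by_contra hlt
    exact hk _ (not_le.mp hlt) hpos (pow_orderOf_eq_one _)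
  exact lt_of_lt_of_le hB (Nat.pow_le_pow_right hℓ.out.pos hle)

/-- The ramified prime is principal. -/
theorem exists_primesOver_ramified (p B : ℕ) [hp : Fact p.Prime]
    (K : Type*) [Field K] [NumberField K] [hK : IsCyclotomicExtension {p} ℚ K] :
    ∃ P ∈ primesOver (span {(p : ℤ)}) (𝓞 K),
      B < p ^ P.inertiaDeg ℤ ∨ Submodule.IsPrincipal P := by
  have : NeZero p := ⟨hp.out.ne_zero⟩
  have hζ := IsCyclotomicExtension.zeta_spec p ℚ K
  refine ⟨span {hζ.toInteger - 1}, ⟨isPrime_span_zeta_sub_one' p hζ, ?_⟩, Or.inr ⟨⟨_, rfl⟩⟩⟩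
  have hK' : IsCyclotomicExtension {p ^ (0 + 1)} ℚ K := by rwa [zero_add, pow_one]
  have hζ' : IsPrimitiveRoot (IsCyclotomicExtension.zeta p ℚ K) (p ^ (0 + 1)) := by
    rwa [zero_add, pow_one]
  exact liesOver_span_zeta_sub_one p 0 hζ'

/-- A prime described by Kummer–Dedekind which is shown to be principal. -/
theorem exists_primesOver_principal (p ℓ B : ℕ) [hp : Fact p.Prime] [hℓ : Fact ℓ.Prime]
    (K : Type*) [Field K] [NumberField K] [IsCyclotomicExtension {p} ℚ K]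
    (Q : ℤ[X]) (hQm : (Q.map (Int.castRingHom (ZMod ℓ))).Monic)
    (hQi : Irreducible (Q.map (Int.castRingHom (ZMod ℓ))))
    (hQd : Q.map (Int.castRingHom (ZMod ℓ)) ∣ cyclotomic p (ZMod ℓ))
    (α : 𝓞 K)
    (hα : span {(ℓ : 𝓞 K), aeval (IsCyclotomicExtension.zeta_spec p ℚ K).toInteger Q} =
      span {α}) :
    ∃ P ∈ primesOver (span {(ℓ : ℤ)}) (𝓞 K),
      B < ℓ ^ P.inertiaDeg ℤ ∨ Submodule.IsPrincipal P := by
  have : NeZero p := ⟨hp.out.ne_zero⟩
  set θ := (IsCyclotomicExtension.zeta_spec p ℚ K).toInteger with hθ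
  have h₁ : ¬ ℓ ∣ RingOfIntegers.exponent θ := by
    rw [RingOfIntegers.exponent_eq_one_iff.mpr <|
      adjoin_singleton_eq_top (IsCyclotomicExtension.zeta_spec p ℚ K)]
    exact hℓ.out.not_dvd_one
  have hmin : (minpoly ℤ θ).map (Int.castRingHom (ZMod ℓ)) = cyclotomic p (ZMod ℓ) := by
    rw [← map_cyclotomic_int, cyclotomic_eq_minpoly (IsCyclotomicExtension.zeta_spec p ℚ K)
      (NeZero.pos _), ← (IsCyclotomicExtension.zeta_spec p ℚ K).coe_toInteger,
      ← RingOfIntegers.minpoly_coe θ]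
    rfl
  have hQ : Q.map (Int.castRingHom (ZMod ℓ)) ∈ RingOfIntegers.monicFactorsMod θ ℓ := by
    rw [Multiset.mem_toFinset, Polynomial.mem_normalizedFactors_iff
      (map_monic_ne_zero (minpoly.monic θ.isIntegral))]
    exact ⟨hQi, hQm, hmin ▸ hQd⟩
  refine ⟨((NumberField.Ideal.primesOverSpanEquivMonicFactorsMod h₁).symm ⟨_, hQ⟩ : _),
    ((NumberField.Ideal.primesOverSpanEquivMonicFactorsMod h₁).symm ⟨_, hQ⟩).2, Or.inr ?_⟩
  rw [NumberField.Ideal.primesOverSpanEquivMonicFactorsMod_symm_apply_eq_span h₁ hQ, hα]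
  exact ⟨⟨α, rfl⟩⟩

/-- The linear-factor special case: the prime `(ℓ, ζ - r)` is generated by `α`. -/
theorem exists_primesOver_principal_linear (p ℓ B : ℕ) [hp : Fact p.Prime] [hℓ : Fact ℓ.Prime]
    (K : Type*) [Field K] [NumberField K] [IsCyclotomicExtension {p} ℚ K]
    (r : ℤ) (hr : (cyclotomic p (ZMod ℓ)).IsRoot (r : ZMod ℓ))
    (α β γ u v : 𝓞 K)
    (h1 : (ℓ : 𝓞 K) = α * β)
    (h2 : (IsCyclotomicExtension.zeta_spec p ℚ K).toInteger - (r : 𝓞 K) = α * γ)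
    (h3 : α = u * (ℓ : 𝓞 K) + v * ((IsCyclotomicExtension.zeta_spec p ℚ K).toInteger - (r : 𝓞 K))) :
    ∃ P ∈ primesOver (span {(ℓ : ℤ)}) (𝓞 K),
      B < ℓ ^ P.inertiaDeg ℤ ∨ Submodule.IsPrincipal P := by
  have hmap : (X - C r : ℤ[X]).map (Int.castRingHom (ZMod ℓ)) = X - C (r : ZMod ℓ) := by
    simp
  refine exists_primesOver_principal p ℓ B K (X - C r) ?_ ?_ ?_ α ?_
  · rw [hmap]; exact monic_X_sub_C _
  · rw [hmap]; exact irreducible_X_sub_C _
  · rw [hmap, dvd_iff_isRoot]; exact hr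
  · have haev : aeval (IsCyclotomicExtension.zeta_spec p ℚ K).toInteger (X - C r : ℤ[X]) =
        (IsCyclotomicExtension.zeta_spec p ℚ K).toInteger - (r : 𝓞 K) := by
      simp
    rw [haev]
    apply le_antisymm
    · rw [span_le]
      rintro x (rfl | rfl)
      · exact mem_span_singleton.2 ⟨β, h1⟩
      · exact mem_span_singleton.2 ⟨γ, h2⟩
    · rw [span_singleton_le_iff_mem, mem_span_pair]
      exact ⟨u, v, h3.symm⟩

/-- Minkowski bound for `ℚ(ζ₇)` is `< 5`. -/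
theorem minkowski_seven (K : Type*) [Field K] [NumberField K] [IsCyclotomicExtension {7} ℚ K] :
    ⌊(4 / π) ^ nrComplexPlaces K *
      ((finrank ℚ K)! / (finrank ℚ K) ^ (finrank ℚ K) * √|discr K|)⌋₊ ≤ 4 := by
  have : Fact (Nat.Prime 7) := ⟨by norm_num⟩
  rw [discr_prime 7 K, IsCyclotomicExtension.finrank (n := 7) K
    (cyclotomic.irreducible_rat (by simp)), nrComplexPlaces_eq_totient_div_two 7,
    totient_prime (by norm_num : Nat.Prime 7)]
  norm_num
  apply floor_bound_aux (by positivity)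
  have h1 : (4 / π) ^ 3 < (4 / 3) ^ 3 := by
    gcongr
    exact pi_gt_three
  have h2 : √16807 < 130 := by
    rw [Real.sqrt_lt' (by norm_num)]
    norm_num
  calc (4 / π) ^ 3 * (5 / 324 * √16807) < (4 / 3) ^ 3 * (5 / 324 * 130) := by
        apply mul_lt_mul h1 (by linarith) (by positivity) (by positivity)
    _ < ((4:ℕ) : ℝ) + 1 := by norm_num

theorem ord_two_seven : ∀ j < 3, 0 < j → ((2 : ℕ) : ZMod 7) ^ j ≠ 1 := by decide

theorem ord_three_seven : ∀ j < 2, 0 < j → ((3 : ℕ) : ZMod 7) ^ j ≠ 1 := by decide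

/-- `ℤ[ζ₇]` is a PID. -/
theorem pid_seven (K : Type*) [Field K] [NumberField K] [IsCyclotomicExtension {7} ℚ K] :
    IsPrincipalIdealRing (𝓞 K) := by
  have : Fact (Nat.Prime 7) := ⟨by norm_num⟩
  have : IsGalois ℚ K := IsCyclotomicExtension.isGalois {7} ℚ K
  apply RingOfIntegers.isPrincipalIdealRing_of_isPrincipal_of_lt_or_isPrincipal_of_mem_primesOver_of_mem_Icc
  intro ℓ hℓ hℓp
  have hB := minkowski_seven K
  have hℓ4 : ℓ ≤ 4 := (Finset.mem_Icc.mp hℓ).2.trans hB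
  have : Fact ℓ.Prime := ⟨hℓp⟩
  suffices h : ∃ P ∈ primesOver (span {(ℓ : ℤ)}) (𝓞 K),
      4 < ℓ ^ P.inertiaDeg ℤ ∨ Submodule.IsPrincipal P by
    obtain ⟨P, hP, h⟩ := h
    exact ⟨P, hP, h.imp (fun h => lt_of_le_of_lt hB h) id⟩
  have h2 := hℓp.two_le
  interval_cases ℓ
  · exact exists_primesOver_lt_pow 7 2 4 3 K (by norm_num)
      ord_two_seven (by norm_num)
  · exact exists_primesOver_lt_pow 7 3 4 2 K (by norm_num)
      ord_three_seven (by norm_num)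
  · exact absurd hℓp (by norm_num)

end Fermat.Agent.Kummer.ClassNumberOne
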