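import Fermat.Agent.Kummer.PIDBasic

/-!
# `ℤ[ζ_11]` is a principal ideal domain
-/

set_option autoImplicit false

namespace Fermat.Agent.Kummer.ClassNumberOne

open NumberField Polynomial InfinitePlace Nat Real Module Ideal IsCyclotomicExtension.Rat

theorem minkowski_eleven (K : Type*) [Field K] [NumberField K]
    [IsCyclotomicExtension {11} ℚ K] :
    ⌊(4 / π) ^ nrComplexPlaces K *
      ((finrank ℚ K)! / (finrank ℚ K) ^ (finrank ℚ K) * √|discr K|)⌋₊ ≤ 59 := by
  have : Fact (Nat.Prime 11) := ⟨by norm_num⟩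
  rw [discr_prime 11 K, IsCyclotomicExtension.finrank (n := 11) K
    (cyclotomic.irreducible_rat (by simp)), nrComplexPlaces_eq_totient_div_two 11,
    totient_prime (by norm_num : Nat.Prime 11)]
  norm_num
  apply floor_bound_aux (by positivity)
  have h1 : (4 / π) ^ 5 < (4 / 3.14) ^ 5 := by
    gcongr
    exact pi_gt_d2
  have h2 : √2357947691 < 48559 := by
    rw [Real.sqrt_lt' (by norm_num)]
    norm_num
  calc (4 / π) ^ 5 * (567 / 1562500 * √2357947691)
      < (4 / 3.14) ^ 5 * (567 / 1562500 * 48559) := by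
        apply mul_lt_mul h1 (by linarith) (by positivity) (by positivity)
    _ < ((59:ℕ) : ℝ) + 1 := by norm_num

theorem geom_sum_eleven (K : Type*) [Field K] [NumberField K] [IsCyclotomicExtension {11} ℚ K] :
    let θ := (IsCyclotomicExtension.zeta_spec 11 ℚ K).toInteger
    1 + θ + θ ^ 2 + θ ^ 3 + θ ^ 4 + θ ^ 5 + θ ^ 6 + θ ^ 7 + θ ^ 8 + θ ^ 9 + θ ^ 10 = 0 := by
  intro θ
  have h := (IsCyclotomicExtension.zeta_spec 11 ℚ K).toInteger_isPrimitiveRoot.geom_sum_eq_zero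
    (by norm_num)
  simpa [Finset.sum_range_succ] using h

theorem root_23_11 : (cyclotomic 11 (ZMod 23)).IsRoot (((13 : ℤ)) : ZMod 23) := by
  have : Fact (Nat.Prime 11) := ⟨by norm_num⟩
  rw [cyclotomic_prime]
  simp only [IsRoot.def, eval_finsetSum, eval_pow, eval_X]
  decide

theorem case_23_11 (B : ℕ) (K : Type*) [Field K] [NumberField K]
    [IsCyclotomicExtension {11} ℚ K] [Fact (Nat.Prime 11)] [Fact (Nat.Prime 23)] :
    ∃ P ∈ primesOver (span {((23 : ℕ) : ℤ)}) (𝓞 K),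
      B < 23 ^ P.inertiaDeg ℤ ∨ Submodule.IsPrincipal P := by
  have hΦ := geom_sum_eleven K
  set θ := (IsCyclotomicExtension.zeta_spec 11 ℚ K).toInteger with hθ
  refine exists_primesOver_principal_linear 11 23 B K 13 root_23_11
    (1 - θ + θ ^ 3)
    (8 - 2 * θ - θ ^ 2 - 8 * θ ^ 3 - 5 * θ ^ 4 - 3 * θ ^ 5 + 6 * θ ^ 6 + 12 * θ ^ 7 + 16 * θ ^ 8 + 11 * θ ^ 9)
    (-5 + θ + 4 * θ ^ 3 + 2 * θ ^ 4 + θ ^ 5 - 4 * θ ^ 6 - 7 * θ ^ 7 - 9 * θ ^ 8 - 6 * θ ^ 9)
    (95) (168 + 13 * θ + θ ^ 2) ?_ ?_ ?_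
  · push_cast
    linear_combination (-(-15 + 5 * θ + 11 * θ ^ 2)) * hΦ
  · push_cast
    linear_combination (-(8 - 3 * θ - 6 * θ ^ 2)) * hΦ
  · push_cast
    ring

theorem ord_2_11 : ∀ j < 6, 0 < j → ((2 : ℕ) : ZMod 11) ^ j ≠ 1 := by decide

theorem ord_3_11 : ∀ j < 4, 0 < j → ((3 : ℕ) : ZMod 11) ^ j ≠ 1 := by decide

theorem ord_5_11 : ∀ j < 3, 0 < j → ((5 : ℕ) : ZMod 11) ^ j ≠ 1 := by decide

theorem ord_7_11 : ∀ j < 3, 0 < j → ((7 : ℕ) : ZMod 11) ^ j ≠ 1 := by decide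

theorem ord_13_11 : ∀ j < 2, 0 < j → ((13 : ℕ) : ZMod 11) ^ j ≠ 1 := by decide

theorem ord_17_11 : ∀ j < 2, 0 < j → ((17 : ℕ) : ZMod 11) ^ j ≠ 1 := by decide

theorem ord_19_11 : ∀ j < 2, 0 < j → ((19 : ℕ) : ZMod 11) ^ j ≠ 1 := by decide

theorem ord_29_11 : ∀ j < 2, 0 < j → ((29 : ℕ) : ZMod 11) ^ j ≠ 1 := by decide

theorem ord_31_11 : ∀ j < 2, 0 < j → ((31 : ℕ) : ZMod 11) ^ j ≠ 1 := by decide

theorem ord_37_11 : ∀ j < 2, 0 < j → ((37 : ℕ) : ZMod 11) ^ j ≠ 1 := by decide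

theorem ord_41_11 : ∀ j < 2, 0 < j → ((41 : ℕ) : ZMod 11) ^ j ≠ 1 := by decide

theorem ord_43_11 : ∀ j < 2, 0 < j → ((43 : ℕ) : ZMod 11) ^ j ≠ 1 := by decide

theorem ord_47_11 : ∀ j < 2, 0 < j → ((47 : ℕ) : ZMod 11) ^ j ≠ 1 := by decide

theorem ord_53_11 : ∀ j < 2, 0 < j → ((53 : ℕ) : ZMod 11) ^ j ≠ 1 := by decide

theorem ord_59_11 : ∀ j < 2, 0 < j → ((59 : ℕ) : ZMod 11) ^ j ≠ 1 := by decide

/-- `ℤ[ζ_11]` is a PID. -/
theorem pid_eleven (K : Type*) [Field K] [NumberField K] [IsCyclotomicExtension {11} ℚ K] :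
    IsPrincipalIdealRing (𝓞 K) := by
  have : Fact (Nat.Prime 11) := ⟨by norm_num⟩
  have : IsGalois ℚ K := IsCyclotomicExtension.isGalois {11} ℚ K
  apply RingOfIntegers.isPrincipalIdealRing_of_isPrincipal_of_lt_or_isPrincipal_of_mem_primesOver_of_mem_Icc
  intro ℓ hℓ hℓp
  have hB := minkowski_eleven K
  have hℓB : ℓ ≤ 59 := (Finset.mem_Icc.mp hℓ).2.trans hB
  have : Fact ℓ.Prime := ⟨hℓp⟩
  suffices h : ∃ P ∈ primesOver (span {(ℓ : ℤ)}) (𝓞 K),
      59 < ℓ ^ P.inertiaDeg ℤ ∨ Submodule.IsPrincipal P by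
    obtain ⟨P, hP, h⟩ := h
    exact ⟨P, hP, h.imp (fun h => lt_of_le_of_lt hB h) id⟩
  have h2 := hℓp.two_le
  interval_cases ℓ
  · exact exists_primesOver_lt_pow 11 2 59 6 K (by norm_num) ord_2_11 (by norm_num)
  · exact exists_primesOver_lt_pow 11 3 59 4 K (by norm_num) ord_3_11 (by norm_num)
  · exact absurd hℓp (by norm_num)
  · exact exists_primesOver_lt_pow 11 5 59 3 K (by norm_num) ord_5_11 (by norm_num)
  · exact absurd hℓp (by norm_num)
  · exact exists_primesOver_lt_pow 11 7 59 3 K (by norm_num) ord_7_11 (by norm_num)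
  · exact absurd hℓp (by norm_num)
  · exact absurd hℓp (by norm_num)
  · exact absurd hℓp (by norm_num)
  · exact exists_primesOver_ramified 11 59 K
  · exact absurd hℓp (by norm_num)
  · exact exists_primesOver_lt_pow 11 13 59 2 K (by norm_num) ord_13_11 (by norm_num)
  · exact absurd hℓp (by norm_num)
  · exact absurd hℓp (by norm_num)
  · exact absurd hℓp (by norm_num)
  · exact exists_primesOver_lt_pow 11 17 59 2 K (by norm_num) ord_17_11 (by norm_num)
  · exact absurd hℓp (by norm_num)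
  · exact exists_primesOver_lt_pow 11 19 59 2 K (by norm_num) ord_19_11 (by norm_num)
  · exact absurd hℓp (by norm_num)
  · exact absurd hℓp (by norm_num)
  · exact absurd hℓp (by norm_num)
  · exact case_23_11 59 K
  · exact absurd hℓp (by norm_num)
  · exact absurd hℓp (by norm_num)
  · exact absurd hℓp (by norm_num)
  · exact absurd hℓp (by norm_num)
  · exact absurd hℓp (by norm_num)
  · exact exists_primesOver_lt_pow 11 29 59 2 K (by norm_num) ord_29_11 (by norm_num)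
  · exact absurd hℓp (by norm_num)
  · exact exists_primesOver_lt_pow 11 31 59 2 K (by norm_num) ord_31_11 (by norm_num)
  · exact absurd hℓp (by norm_num)
  · exact absurd hℓp (by norm_num)
  · exact absurd hℓp (by norm_num)
  · exact absurd hℓp (by norm_num)
  · exact absurd hℓp (by norm_num)
  · exact exists_primesOver_lt_pow 11 37 59 2 K (by norm_num) ord_37_11 (by norm_num)
  · exact absurd hℓp (by norm_num)
  · exact absurd hℓp (by norm_num)
  · exact absurd hℓp (by norm_num)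
  · exact exists_primesOver_lt_pow 11 41 59 2 K (by norm_num) ord_41_11 (by norm_num)
  · exact absurd hℓp (by norm_num)
  · exact exists_primesOver_lt_pow 11 43 59 2 K (by norm_num) ord_43_11 (by norm_num)
  · exact absurd hℓp (by norm_num)
  · exact absurd hℓp (by norm_num)
  · exact absurd hℓp (by norm_num)
  · exact exists_primesOver_lt_pow 11 47 59 2 K (by norm_num) ord_47_11 (by norm_num)
  · exact absurd hℓp (by norm_num)
  · exact absurd hℓp (by norm_num)
  · exact absurd hℓp (by norm_num)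
  · exact absurd hℓp (by norm_num)
  · exact absurd hℓp (by norm_num)
  · exact exists_primesOver_lt_pow 11 53 59 2 K (by norm_num) ord_53_11 (by norm_num)
  · exact absurd hℓp (by norm_num)
  · exact absurd hℓp (by norm_num)
  · exact absurd hℓp (by norm_num)
  · exact absurd hℓp (by norm_num)
  · exact absurd hℓp (by norm_num)
  · exact exists_primesOver_lt_pow 11 59 59 2 K (by norm_num) ord_59_11 (by norm_num)

end Fermat.Agent.Kummer.ClassNumberOne
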