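import Fermat.Agent.Kummer.PIDBasic

/-!
# `ℤ[ζ_13]` is a principal ideal domain
-/

set_option autoImplicit false

namespace Fermat.Agent.Kummer.ClassNumberOne

open NumberField Polynomial InfinitePlace Nat Real Module Ideal IsCyclotomicExtension.Rat

theorem minkowski_thirteen (K : Type*) [Field K] [NumberField K]
    [IsCyclotomicExtension {13} ℚ K] :
    ⌊(4 / π) ^ nrComplexPlaces K *
      ((finrank ℚ K)! / (finrank ℚ K) ^ (finrank ℚ K) * √|discr K|)⌋₊ ≤ 307 := by
  have : Fact (Nat.Prime 13) := ⟨by norm_num⟩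
  rw [discr_prime 13 K, IsCyclotomicExtension.finrank (n := 13) K
    (cyclotomic.irreducible_rat (by simp)), nrComplexPlaces_eq_totient_div_two 13,
    totient_prime (by norm_num : Nat.Prime 13)]
  norm_num
  apply floor_bound_aux (by positivity)
  have h1 : (4 / π) ^ 6 < (4 / 3.14) ^ 6 := by
    gcongr
    exact pi_gt_d2
  have h2 : √1792160394037 < 1338717 := by
    rw [Real.sqrt_lt' (by norm_num)]
    norm_num
  calc (4 / π) ^ 6 * (1925 / 35831808 * √1792160394037)
      < (4 / 3.14) ^ 6 * (1925 / 35831808 * 1338717) := by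
        apply mul_lt_mul h1 (by linarith) (by positivity) (by positivity)
    _ < ((307:ℕ) : ℝ) + 1 := by norm_num

theorem geom_sum_thirteen (K : Type*) [Field K] [NumberField K] [IsCyclotomicExtension {13} ℚ K] :
    let θ := (IsCyclotomicExtension.zeta_spec 13 ℚ K).toInteger
    1 + θ + θ ^ 2 + θ ^ 3 + θ ^ 4 + θ ^ 5 + θ ^ 6 + θ ^ 7 + θ ^ 8 + θ ^ 9 + θ ^ 10 + θ ^ 11 + θ ^ 12 = 0 := by
  intro θ
  have h := (IsCyclotomicExtension.zeta_spec 13 ℚ K).toInteger_isPrimitiveRoot.geom_sum_eq_zero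
    (by norm_num)
  simpa [Finset.sum_range_succ] using h

theorem root_53_13 : (cyclotomic 13 (ZMod 53)).IsRoot (((16 : ℤ)) : ZMod 53) := by
  have : Fact (Nat.Prime 13) := ⟨by norm_num⟩
  rw [cyclotomic_prime]
  simp only [IsRoot.def, eval_finsetSum, eval_pow, eval_X]
  decide

theorem case_53_13 (B : ℕ) (K : Type*) [Field K] [NumberField K]
    [IsCyclotomicExtension {13} ℚ K] [Fact (Nat.Prime 13)] [Fact (Nat.Prime 53)] :
    ∃ P ∈ primesOver (span {((53 : ℕ) : ℤ)}) (𝓞 K),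
      B < 53 ^ P.inertiaDeg ℤ ∨ Submodule.IsPrincipal P := by
  have hΦ := geom_sum_thirteen K
  set θ := (IsCyclotomicExtension.zeta_spec 13 ℚ K).toInteger with hθ
  refine exists_primesOver_principal_linear 13 53 B K 16 root_53_13
    (1 - θ + θ ^ 3)
    (25 + 10 * θ + 19 * θ ^ 2 + 3 * θ ^ 3 + 2 * θ ^ 4 - 8 * θ ^ 5 - 2 * θ ^ 6 + 5 * θ ^ 7 + 22 * θ ^ 8 + 33 * θ ^ 9 + 37 * θ ^ 10 + 24 * θ ^ 11)
    (-8 - 3 * θ - 6 * θ ^ 2 - θ ^ 3 - θ ^ 4 + 2 * θ ^ 5 - 2 * θ ^ 7 - 7 * θ ^ 8 - 10 * θ ^ 9 - 11 * θ ^ 10 - 7 * θ ^ 11)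
    (77) (255 + 16 * θ + θ ^ 2) ?_ ?_ ?_
  · push_cast
    linear_combination (-(-28 + 13 * θ + 24 * θ ^ 2)) * hΦ
  · push_cast
    linear_combination (-(8 - 4 * θ - 7 * θ ^ 2)) * hΦ
  · push_cast
    ring

theorem root_79_13 : (cyclotomic 13 (ZMod 79)).IsRoot (((62 : ℤ)) : ZMod 79) := by
  have : Fact (Nat.Prime 13) := ⟨by norm_num⟩
  rw [cyclotomic_prime]
  simp only [IsRoot.def, eval_finsetSum, eval_pow, eval_X]
  decide

theorem case_79_13 (B : ℕ) (K : Type*) [Field K] [NumberField K]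
    [IsCyclotomicExtension {13} ℚ K] [Fact (Nat.Prime 13)] [Fact (Nat.Prime 79)] :
    ∃ P ∈ primesOver (span {((79 : ℕ) : ℤ)}) (𝓞 K),
      B < 79 ^ P.inertiaDeg ℤ ∨ Submodule.IsPrincipal P := by
  have hΦ := geom_sum_thirteen K
  set θ := (IsCyclotomicExtension.zeta_spec 13 ℚ K).toInteger with hθ
  refine exists_primesOver_principal_linear 13 79 B K 62 root_79_13
    (1 - θ - θ ^ 4)
    (62 + 63 * θ + 49 * θ ^ 2 + 8 * θ ^ 3 + 29 * θ ^ 4 + 51 * θ ^ 5 + 59 * θ ^ 6 + 26 * θ ^ 7 + 14 * θ ^ 8 + 24 * θ ^ 9 + 42 * θ ^ 10 + 27 * θ ^ 11)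
    (-49 - 49 * θ - 38 * θ ^ 2 - 6 * θ ^ 3 - 23 * θ ^ 4 - 40 * θ ^ 5 - 46 * θ ^ 6 - 20 * θ ^ 7 - 11 * θ ^ 8 - 19 * θ ^ 9 - 33 * θ ^ 10 - 21 * θ ^ 11)
    (-187043) (-238329 - 3844 * θ - 62 * θ ^ 2 - θ ^ 3) ?_ ?_ ?_
  · push_cast
    linear_combination (-(-17 + 18 * θ - 15 * θ ^ 2 - 27 * θ ^ 3)) * hΦ
  · push_cast
    linear_combination (-(13 - 14 * θ + 12 * θ ^ 2 + 21 * θ ^ 3)) * hΦ
  · push_cast
    ring

theorem root_131_13 : (cyclotomic 13 (ZMod 131)).IsRoot (((80 : ℤ)) : ZMod 131) := by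
  have : Fact (Nat.Prime 13) := ⟨by norm_num⟩
  rw [cyclotomic_prime]
  simp only [IsRoot.def, eval_finsetSum, eval_pow, eval_X]
  decide

theorem case_131_13 (B : ℕ) (K : Type*) [Field K] [NumberField K]
    [IsCyclotomicExtension {13} ℚ K] [Fact (Nat.Prime 13)] [Fact (Nat.Prime 131)] :
    ∃ P ∈ primesOver (span {((131 : ℕ) : ℤ)}) (𝓞 K),
      B < 131 ^ P.inertiaDeg ℤ ∨ Submodule.IsPrincipal P := by
  have hΦ := geom_sum_thirteen K
  set θ := (IsCyclotomicExtension.zeta_spec 13 ℚ K).toInteger with hθ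
  refine exists_primesOver_principal_linear 13 131 B K 80 root_131_13
    (1 - θ - θ ^ 3)
    (111 + 78 * θ + 17 * θ ^ 2 + 67 * θ ^ 3 + 84 * θ ^ 4 + 40 * θ ^ 5 + 46 * θ ^ 6 + 69 * θ ^ 7 + 48 * θ ^ 8 + 33 * θ ^ 9 + 41 * θ ^ 10 + 28 * θ ^ 11)
    (-68 - 47 * θ - 10 * θ ^ 2 - 41 * θ ^ 3 - 51 * θ ^ 4 - 24 * θ ^ 5 - 28 * θ ^ 6 - 42 * θ ^ 7 - 29 * θ ^ 8 - 20 * θ ^ 9 - 25 * θ ^ 10 - 17 * θ ^ 11)
    (-3909) (-6401 - 80 * θ - θ ^ 2) ?_ ?_ ?_
  · push_cast
    linear_combination (-(-20 - 13 * θ - 28 * θ ^ 2)) * hΦ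
  · push_cast
    linear_combination (-(12 + 8 * θ + 17 * θ ^ 2)) * hΦ
  · push_cast
    ring

theorem root_157_13 : (cyclotomic 13 (ZMod 157)).IsRoot (((75 : ℤ)) : ZMod 157) := by
  have : Fact (Nat.Prime 13) := ⟨by norm_num⟩
  rw [cyclotomic_prime]
  simp only [IsRoot.def, eval_finsetSum, eval_pow, eval_X]
  decide

theorem case_157_13 (B : ℕ) (K : Type*) [Field K] [NumberField K]
    [IsCyclotomicExtension {13} ℚ K] [Fact (Nat.Prime 13)] [Fact (Nat.Prime 157)] :
    ∃ P ∈ primesOver (span {((157 : ℕ) : ℤ)}) (𝓞 K),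
      B < 157 ^ P.inertiaDeg ℤ ∨ Submodule.IsPrincipal P := by
  have hΦ := geom_sum_thirteen K
  set θ := (IsCyclotomicExtension.zeta_spec 13 ℚ K).toInteger with hθ
  refine exists_primesOver_principal_linear 13 157 B K 75 root_157_13
    (1 - θ + θ ^ 2 + θ ^ 4)
    (89 + 86 * θ + 42 * θ ^ 2 + 77 * θ ^ 3 + 67 * θ ^ 4 + 25 * θ ^ 5 + 37 * θ ^ 6 + 56 * θ ^ 7 + 73 * θ ^ 8 + 113 * θ ^ 9 + 124 * θ ^ 10 + 76 * θ ^ 11)
    (-43 - 41 * θ - 20 * θ ^ 2 - 37 * θ ^ 3 - 32 * θ ^ 4 - 12 * θ ^ 5 - 18 * θ ^ 6 - 27 * θ ^ 7 - 35 * θ ^ 8 - 54 * θ ^ 9 - 59 * θ ^ 10 - 36 * θ ^ 11)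
    (201568) (421949 + 5626 * θ + 75 * θ ^ 2 + θ ^ 3) ?_ ?_ ?_
  · push_cast
    linear_combination (-(-68 + 65 * θ + 48 * θ ^ 2 + 76 * θ ^ 3)) * hΦ
  · push_cast
    linear_combination (-(32 - 31 * θ - 23 * θ ^ 2 - 36 * θ ^ 3)) * hΦ
  · push_cast
    ring

theorem cubic_irreducible_3_13 :
    Irreducible ((X ^ 3 - X - 1 : ℤ[X]).map (Int.castRingHom (ZMod 3))) := by
  have hmap : (X ^ 3 - X - 1 : ℤ[X]).map (Int.castRingHom (ZMod 3)) =
      (X ^ 3 - X - 1 : (ZMod 3)[X]) := by simp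
  rw [hmap]
  have hmonic : (X ^ 3 - X - 1 : (ZMod 3)[X]).Monic := by
    have : (X ^ 3 - X - 1 : (ZMod 3)[X]) = X ^ 3 - (X + 1) := by ring
    rw [this]
    apply monic_X_pow_sub
    rw [show (X + 1 : (ZMod 3)[X]) = X + C 1 by simp, degree_X_add_C]
    norm_num
  have hdeg : (X ^ 3 - X - 1 : (ZMod 3)[X]).natDegree = 3 := by compute_degree!
  rw [hmonic.irreducible_iff_roots_eq_zero_of_degree_le_three (by omega) (by omega)]
  rw [Multiset.eq_zero_iff_forall_notMem]
  intro a ha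
  rw [mem_roots hmonic.ne_zero] at ha
  simp only [IsRoot.def, eval_sub, eval_pow, eval_X, eval_one] at ha
  revert a
  decide

theorem cubic_dvd_3_13 :
    (X ^ 3 - X - 1 : ℤ[X]).map (Int.castRingHom (ZMod 3)) ∣ cyclotomic 13 (ZMod 3) := by
  have : Fact (Nat.Prime 13) := ⟨by norm_num⟩
  have h : (cyclotomic 13 ℤ) = (X ^ 3 - X - 1 : ℤ[X]) * (20 + 15 * X + 11 * X ^ 2 + 8 * X ^ 3 + 6 * X ^ 4 + 4 * X ^ 5 + 3 * X ^ 6 + 2 * X ^ 7 + X ^ 8 + X ^ 9) + C 3 * (7 + 12 * X + 9 * X ^ 2) := by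
    rw [cyclotomic_prime]
    simp only [Finset.sum_range_succ, Finset.sum_range_zero, map_ofNat]
    ring
  rw [← map_cyclotomic_int, h, Polynomial.map_add, Polynomial.map_mul, Polynomial.map_mul]
  have h3 : (C (3 : ℤ)).map (Int.castRingHom (ZMod 3)) = 0 := by
    rw [map_C]
    have : (Int.castRingHom (ZMod 3)) 3 = 0 := by decide
    rw [this, map_zero]
  rw [h3, zero_mul, add_zero]
  exact dvd_mul_right _ _

theorem case_3_13 (B : ℕ) (K : Type*) [Field K] [NumberField K]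
    [IsCyclotomicExtension {13} ℚ K] [Fact (Nat.Prime 13)] [Fact (Nat.Prime 3)] :
    ∃ P ∈ primesOver (span {((3 : ℕ) : ℤ)}) (𝓞 K),
      B < 3 ^ P.inertiaDeg ℤ ∨ Submodule.IsPrincipal P := by
  have hΦ := geom_sum_thirteen K
  set θ := (IsCyclotomicExtension.zeta_spec 13 ℚ K).toInteger with hθ
  have hmonic : ((X ^ 3 - X - 1 : ℤ[X]).map (Int.castRingHom (ZMod 3))).Monic := by
    have hmap : (X ^ 3 - X - 1 : ℤ[X]).map (Int.castRingHom (ZMod 3)) =
        (X ^ 3 - (X + 1) : (ZMod 3)[X]) := by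
      simp only [Polynomial.map_sub, Polynomial.map_pow, map_X, Polynomial.map_one]
      ring
    rw [hmap]
    apply monic_X_pow_sub
    rw [show (X + 1 : (ZMod 3)[X]) = X + C 1 by simp, degree_X_add_C]
    norm_num
  refine exists_primesOver_principal 13 3 B K (X ^ 3 - X - 1) hmonic cubic_irreducible_3_13
    cubic_dvd_3_13 (1 + θ - θ ^ 3) ?_
  have haev : aeval θ (X ^ 3 - X - 1 : ℤ[X]) = θ ^ 3 - θ - 1 := by simp
  rw [haev]
  apply le_antisymm
  · rw [span_le]
    rintro x (rfl | rfl)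
    · refine mem_span_singleton.2 ⟨-1 - θ ^ 2 - θ ^ 3 - 2 * θ ^ 5 - θ ^ 7 - 2 * θ ^ 8 + θ ^ 9 - 3 * θ ^ 10, ?_⟩
      push_cast
      linear_combination (-(-4 + 3 * θ)) * hΦ
    · exact mem_span_singleton.2 ⟨-1, by ring⟩
  · rw [span_singleton_le_iff_mem, mem_span_pair]
    exact ⟨0, -1, by ring⟩

theorem ord_2_13 : ∀ j < 9, 0 < j → ((2 : ℕ) : ZMod 13) ^ j ≠ 1 := by decide

theorem ord_5_13 : ∀ j < 4, 0 < j → ((5 : ℕ) : ZMod 13) ^ j ≠ 1 := by decide

theorem ord_7_13 : ∀ j < 3, 0 < j → ((7 : ℕ) : ZMod 13) ^ j ≠ 1 := by decide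

theorem ord_11_13 : ∀ j < 3, 0 < j → ((11 : ℕ) : ZMod 13) ^ j ≠ 1 := by decide

theorem ord_17_13 : ∀ j < 3, 0 < j → ((17 : ℕ) : ZMod 13) ^ j ≠ 1 := by decide

theorem ord_19_13 : ∀ j < 2, 0 < j → ((19 : ℕ) : ZMod 13) ^ j ≠ 1 := by decide

theorem ord_23_13 : ∀ j < 2, 0 < j → ((23 : ℕ) : ZMod 13) ^ j ≠ 1 := by decide

theorem ord_29_13 : ∀ j < 2, 0 < j → ((29 : ℕ) : ZMod 13) ^ j ≠ 1 := by decide

theorem ord_31_13 : ∀ j < 2, 0 < j → ((31 : ℕ) : ZMod 13) ^ j ≠ 1 := by decide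

theorem ord_37_13 : ∀ j < 2, 0 < j → ((37 : ℕ) : ZMod 13) ^ j ≠ 1 := by decide

theorem ord_41_13 : ∀ j < 2, 0 < j → ((41 : ℕ) : ZMod 13) ^ j ≠ 1 := by decide

theorem ord_43_13 : ∀ j < 2, 0 < j → ((43 : ℕ) : ZMod 13) ^ j ≠ 1 := by decide

theorem ord_47_13 : ∀ j < 2, 0 < j → ((47 : ℕ) : ZMod 13) ^ j ≠ 1 := by decide

theorem ord_59_13 : ∀ j < 2, 0 < j → ((59 : ℕ) : ZMod 13) ^ j ≠ 1 := by decide

theorem ord_61_13 : ∀ j < 2, 0 < j → ((61 : ℕ) : ZMod 13) ^ j ≠ 1 := by decide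

theorem ord_67_13 : ∀ j < 2, 0 < j → ((67 : ℕ) : ZMod 13) ^ j ≠ 1 := by decide

theorem ord_71_13 : ∀ j < 2, 0 < j → ((71 : ℕ) : ZMod 13) ^ j ≠ 1 := by decide

theorem ord_73_13 : ∀ j < 2, 0 < j → ((73 : ℕ) : ZMod 13) ^ j ≠ 1 := by decide

theorem ord_83_13 : ∀ j < 2, 0 < j → ((83 : ℕ) : ZMod 13) ^ j ≠ 1 := by decide

theorem ord_89_13 : ∀ j < 2, 0 < j → ((89 : ℕ) : ZMod 13) ^ j ≠ 1 := by decide

theorem ord_97_13 : ∀ j < 2, 0 < j → ((97 : ℕ) : ZMod 13) ^ j ≠ 1 := by decide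

theorem ord_101_13 : ∀ j < 2, 0 < j → ((101 : ℕ) : ZMod 13) ^ j ≠ 1 := by decide

theorem ord_103_13 : ∀ j < 2, 0 < j → ((103 : ℕ) : ZMod 13) ^ j ≠ 1 := by decide

theorem ord_107_13 : ∀ j < 2, 0 < j → ((107 : ℕ) : ZMod 13) ^ j ≠ 1 := by decide

theorem ord_109_13 : ∀ j < 2, 0 < j → ((109 : ℕ) : ZMod 13) ^ j ≠ 1 := by decide

theorem ord_113_13 : ∀ j < 2, 0 < j → ((113 : ℕ) : ZMod 13) ^ j ≠ 1 := by decide

theorem ord_127_13 : ∀ j < 2, 0 < j → ((127 : ℕ) : ZMod 13) ^ j ≠ 1 := by decide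

theorem ord_137_13 : ∀ j < 2, 0 < j → ((137 : ℕ) : ZMod 13) ^ j ≠ 1 := by decide

theorem ord_139_13 : ∀ j < 2, 0 < j → ((139 : ℕ) : ZMod 13) ^ j ≠ 1 := by decide

theorem ord_149_13 : ∀ j < 2, 0 < j → ((149 : ℕ) : ZMod 13) ^ j ≠ 1 := by decide

theorem ord_151_13 : ∀ j < 2, 0 < j → ((151 : ℕ) : ZMod 13) ^ j ≠ 1 := by decide

theorem ord_163_13 : ∀ j < 2, 0 < j → ((163 : ℕ) : ZMod 13) ^ j ≠ 1 := by decide

theorem ord_167_13 : ∀ j < 2, 0 < j → ((167 : ℕ) : ZMod 13) ^ j ≠ 1 := by decide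

theorem ord_173_13 : ∀ j < 2, 0 < j → ((173 : ℕ) : ZMod 13) ^ j ≠ 1 := by decide

theorem ord_179_13 : ∀ j < 2, 0 < j → ((179 : ℕ) : ZMod 13) ^ j ≠ 1 := by decide

theorem ord_181_13 : ∀ j < 2, 0 < j → ((181 : ℕ) : ZMod 13) ^ j ≠ 1 := by decide

theorem ord_191_13 : ∀ j < 2, 0 < j → ((191 : ℕ) : ZMod 13) ^ j ≠ 1 := by decide

theorem ord_193_13 : ∀ j < 2, 0 < j → ((193 : ℕ) : ZMod 13) ^ j ≠ 1 := by decide

theorem ord_197_13 : ∀ j < 2, 0 < j → ((197 : ℕ) : ZMod 13) ^ j ≠ 1 := by decide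

theorem ord_199_13 : ∀ j < 2, 0 < j → ((199 : ℕ) : ZMod 13) ^ j ≠ 1 := by decide

theorem ord_211_13 : ∀ j < 2, 0 < j → ((211 : ℕ) : ZMod 13) ^ j ≠ 1 := by decide

theorem ord_223_13 : ∀ j < 2, 0 < j → ((223 : ℕ) : ZMod 13) ^ j ≠ 1 := by decide

theorem ord_227_13 : ∀ j < 2, 0 < j → ((227 : ℕ) : ZMod 13) ^ j ≠ 1 := by decide

theorem ord_229_13 : ∀ j < 2, 0 < j → ((229 : ℕ) : ZMod 13) ^ j ≠ 1 := by decide

theorem ord_233_13 : ∀ j < 2, 0 < j → ((233 : ℕ) : ZMod 13) ^ j ≠ 1 := by decide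

theorem ord_239_13 : ∀ j < 2, 0 < j → ((239 : ℕ) : ZMod 13) ^ j ≠ 1 := by decide

theorem ord_241_13 : ∀ j < 2, 0 < j → ((241 : ℕ) : ZMod 13) ^ j ≠ 1 := by decide

theorem ord_251_13 : ∀ j < 2, 0 < j → ((251 : ℕ) : ZMod 13) ^ j ≠ 1 := by decide

theorem ord_257_13 : ∀ j < 2, 0 < j → ((257 : ℕ) : ZMod 13) ^ j ≠ 1 := by decide

theorem ord_263_13 : ∀ j < 2, 0 < j → ((263 : ℕ) : ZMod 13) ^ j ≠ 1 := by decide

theorem ord_269_13 : ∀ j < 2, 0 < j → ((269 : ℕ) : ZMod 13) ^ j ≠ 1 := by decide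

theorem ord_271_13 : ∀ j < 2, 0 < j → ((271 : ℕ) : ZMod 13) ^ j ≠ 1 := by decide

theorem ord_277_13 : ∀ j < 2, 0 < j → ((277 : ℕ) : ZMod 13) ^ j ≠ 1 := by decide

theorem ord_281_13 : ∀ j < 2, 0 < j → ((281 : ℕ) : ZMod 13) ^ j ≠ 1 := by decide

theorem ord_283_13 : ∀ j < 2, 0 < j → ((283 : ℕ) : ZMod 13) ^ j ≠ 1 := by decide

theorem ord_293_13 : ∀ j < 2, 0 < j → ((293 : ℕ) : ZMod 13) ^ j ≠ 1 := by decide

theorem ord_307_13 : ∀ j < 2, 0 < j → ((307 : ℕ) : ZMod 13) ^ j ≠ 1 := by decide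

/-- `ℤ[ζ_13]` is a PID. -/
theorem pid_thirteen (K : Type*) [Field K] [NumberField K] [IsCyclotomicExtension {13} ℚ K] :
    IsPrincipalIdealRing (𝓞 K) := by
  have : Fact (Nat.Prime 13) := ⟨by norm_num⟩
  have : IsGalois ℚ K := IsCyclotomicExtension.isGalois {13} ℚ K
  apply RingOfIntegers.isPrincipalIdealRing_of_isPrincipal_of_lt_or_isPrincipal_of_mem_primesOver_of_mem_Icc
  intro ℓ hℓ hℓp
  have hB := minkowski_thirteen K
  have hℓB : ℓ ≤ 307 := (Finset.mem_Icc.mp hℓ).2.trans hB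
  have : Fact ℓ.Prime := ⟨hℓp⟩
  suffices h : ∃ P ∈ primesOver (span {(ℓ : ℤ)}) (𝓞 K),
      307 < ℓ ^ P.inertiaDeg ℤ ∨ Submodule.IsPrincipal P by
    obtain ⟨P, hP, h⟩ := h
    exact ⟨P, hP, h.imp (fun h => lt_of_le_of_lt hB h) id⟩
  have h2 := hℓp.two_le
  interval_cases ℓ
  · exact exists_primesOver_lt_pow 13 2 307 9 K (by norm_num) ord_2_13 (by norm_num)
  · exact case_3_13 307 K
  · exact absurd hℓp (by norm_num)
  · exact exists_primesOver_lt_pow 13 5 307 4 K (by norm_num) ord_5_13 (by norm_num)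
  · exact absurd hℓp (by norm_num)
  · exact exists_primesOver_lt_pow 13 7 307 3 K (by norm_num) ord_7_13 (by norm_num)
  · exact absurd hℓp (by norm_num)
  · exact absurd hℓp (by norm_num)
  · exact absurd hℓp (by norm_num)
  · exact exists_primesOver_lt_pow 13 11 307 3 K (by norm_num) ord_11_13 (by norm_num)
  · exact absurd hℓp (by norm_num)
  · exact exists_primesOver_ramified 13 307 K
  · exact absurd hℓp (by norm_num)
  · exact absurd hℓp (by norm_num)
  · exact absurd hℓp (by norm_num)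
  · exact exists_primesOver_lt_pow 13 17 307 3 K (by norm_num) ord_17_13 (by norm_num)
  · exact absurd hℓp (by norm_num)
  · exact exists_primesOver_lt_pow 13 19 307 2 K (by norm_num) ord_19_13 (by norm_num)
  · exact absurd hℓp (by norm_num)
  · exact absurd hℓp (by norm_num)
  · exact absurd hℓp (by norm_num)
  · exact exists_primesOver_lt_pow 13 23 307 2 K (by norm_num) ord_23_13 (by norm_num)
  · exact absurd hℓp (by norm_num)
  · exact absurd hℓp (by norm_num)
  · exact absurd hℓp (by norm_num)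
  · exact absurd hℓp (by norm_num)
  · exact absurd hℓp (by norm_num)
  · exact exists_primesOver_lt_pow 13 29 307 2 K (by norm_num) ord_29_13 (by norm_num)
  · exact absurd hℓp (by norm_num)
  · exact exists_primesOver_lt_pow 13 31 307 2 K (by norm_num) ord_31_13 (by norm_num)
  · exact absurd hℓp (by norm_num)
  · exact absurd hℓp (by norm_num)
  · exact absurd hℓp (by norm_num)
  · exact absurd hℓp (by norm_num)
  · exact absurd hℓp (by norm_num)
  · exact exists_primesOver_lt_pow 13 37 307 2 K (by norm_num) ord_37_13 (by norm_num)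
  · exact absurd hℓp (by norm_num)
  · exact absurd hℓp (by norm_num)
  · exact absurd hℓp (by norm_num)
  · exact exists_primesOver_lt_pow 13 41 307 2 K (by norm_num) ord_41_13 (by norm_num)
  · exact absurd hℓp (by norm_num)
  · exact exists_primesOver_lt_pow 13 43 307 2 K (by norm_num) ord_43_13 (by norm_num)
  · exact absurd hℓp (by norm_num)
  · exact absurd hℓp (by norm_num)
  · exact absurd hℓp (by norm_num)
  · exact exists_primesOver_lt_pow 13 47 307 2 K (by norm_num) ord_47_13 (by norm_num)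
  · exact absurd hℓp (by norm_num)
  · exact absurd hℓp (by norm_num)
  · exact absurd hℓp (by norm_num)
  · exact absurd hℓp (by norm_num)
  · exact absurd hℓp (by norm_num)
  · exact case_53_13 307 K
  · exact absurd hℓp (by norm_num)
  · exact absurd hℓp (by norm_num)
  · exact absurd hℓp (by norm_num)
  · exact absurd hℓp (by norm_num)
  · exact absurd hℓp (by norm_num)
  · exact exists_primesOver_lt_pow 13 59 307 2 K (by norm_num) ord_59_13 (by norm_num)
  · exact absurd hℓp (by norm_num)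
  · exact exists_primesOver_lt_pow 13 61 307 2 K (by norm_num) ord_61_13 (by norm_num)
  · exact absurd hℓp (by norm_num)
  · exact absurd hℓp (by norm_num)
  · exact absurd hℓp (by norm_num)
  · exact absurd hℓp (by norm_num)
  · exact absurd hℓp (by norm_num)
  · exact exists_primesOver_lt_pow 13 67 307 2 K (by norm_num) ord_67_13 (by norm_num)
  · exact absurd hℓp (by norm_num)
  · exact absurd hℓp (by norm_num)
  · exact absurd hℓp (by norm_num)
  · exact exists_primesOver_lt_pow 13 71 307 2 K (by norm_num) ord_71_13 (by norm_num)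
  · exact absurd hℓp (by norm_num)
  · exact exists_primesOver_lt_pow 13 73 307 2 K (by norm_num) ord_73_13 (by norm_num)
  · exact absurd hℓp (by norm_num)
  · exact absurd hℓp (by norm_num)
  · exact absurd hℓp (by norm_num)
  · exact absurd hℓp (by norm_num)
  · exact absurd hℓp (by norm_num)
  · exact case_79_13 307 K
  · exact absurd hℓp (by norm_num)
  · exact absurd hℓp (by norm_num)
  · exact absurd hℓp (by norm_num)
  · exact exists_primesOver_lt_pow 13 83 307 2 K (by norm_num) ord_83_13 (by norm_num)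
  · exact absurd hℓp (by norm_num)
  · exact absurd hℓp (by norm_num)
  · exact absurd hℓp (by norm_num)
  · exact absurd hℓp (by norm_num)
  · exact absurd hℓp (by norm_num)
  · exact exists_primesOver_lt_pow 13 89 307 2 K (by norm_num) ord_89_13 (by norm_num)
  · exact absurd hℓp (by norm_num)
  · exact absurd hℓp (by norm_num)
  · exact absurd hℓp (by norm_num)
  · exact absurd hℓp (by norm_num)
  · exact absurd hℓp (by norm_num)
  · exact absurd hℓp (by norm_num)
  · exact absurd hℓp (by norm_num)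
  · exact exists_primesOver_lt_pow 13 97 307 2 K (by norm_num) ord_97_13 (by norm_num)
  · exact absurd hℓp (by norm_num)
  · exact absurd hℓp (by norm_num)
  · exact absurd hℓp (by norm_num)
  · exact exists_primesOver_lt_pow 13 101 307 2 K (by norm_num) ord_101_13 (by norm_num)
  · exact absurd hℓp (by norm_num)
  · exact exists_primesOver_lt_pow 13 103 307 2 K (by norm_num) ord_103_13 (by norm_num)
  · exact absurd hℓp (by norm_num)
  · exact absurd hℓp (by norm_num)
  · exact absurd hℓp (by norm_num)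
  · exact exists_primesOver_lt_pow 13 107 307 2 K (by norm_num) ord_107_13 (by norm_num)
  · exact absurd hℓp (by norm_num)
  · exact exists_primesOver_lt_pow 13 109 307 2 K (by norm_num) ord_109_13 (by norm_num)
  · exact absurd hℓp (by norm_num)
  · exact absurd hℓp (by norm_num)
  · exact absurd hℓp (by norm_num)
  · exact exists_primesOver_lt_pow 13 113 307 2 K (by norm_num) ord_113_13 (by norm_num)
  · exact absurd hℓp (by norm_num)
  · exact absurd hℓp (by norm_num)
  · exact absurd hℓp (by norm_num)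
  · exact absurd hℓp (by norm_num)
  · exact absurd hℓp (by norm_num)
  · exact absurd hℓp (by norm_num)
  · exact absurd hℓp (by norm_num)
  · exact absurd hℓp (by norm_num)
  · exact absurd hℓp (by norm_num)
  · exact absurd hℓp (by norm_num)
  · exact absurd hℓp (by norm_num)
  · exact absurd hℓp (by norm_num)
  · exact absurd hℓp (by norm_num)
  · exact exists_primesOver_lt_pow 13 127 307 2 K (by norm_num) ord_127_13 (by norm_num)
  · exact absurd hℓp (by norm_num)
  · exact absurd hℓp (by norm_num)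
  · exact absurd hℓp (by norm_num)
  · exact case_131_13 307 K
  · exact absurd hℓp (by norm_num)
  · exact absurd hℓp (by norm_num)
  · exact absurd hℓp (by norm_num)
  · exact absurd hℓp (by norm_num)
  · exact absurd hℓp (by norm_num)
  · exact exists_primesOver_lt_pow 13 137 307 2 K (by norm_num) ord_137_13 (by norm_num)
  · exact absurd hℓp (by norm_num)
  · exact exists_primesOver_lt_pow 13 139 307 2 K (by norm_num) ord_139_13 (by norm_num)
  · exact absurd hℓp (by norm_num)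
  · exact absurd hℓp (by norm_num)
  · exact absurd hℓp (by norm_num)
  · exact absurd hℓp (by norm_num)
  · exact absurd hℓp (by norm_num)
  · exact absurd hℓp (by norm_num)
  · exact absurd hℓp (by norm_num)
  · exact absurd hℓp (by norm_num)
  · exact absurd hℓp (by norm_num)
  · exact exists_primesOver_lt_pow 13 149 307 2 K (by norm_num) ord_149_13 (by norm_num)
  · exact absurd hℓp (by norm_num)
  · exact exists_primesOver_lt_pow 13 151 307 2 K (by norm_num) ord_151_13 (by norm_num)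
  · exact absurd hℓp (by norm_num)
  · exact absurd hℓp (by norm_num)
  · exact absurd hℓp (by norm_num)
  · exact absurd hℓp (by norm_num)
  · exact absurd hℓp (by norm_num)
  · exact case_157_13 307 K
  · exact absurd hℓp (by norm_num)
  · exact absurd hℓp (by norm_num)
  · exact absurd hℓp (by norm_num)
  · exact absurd hℓp (by norm_num)
  · exact absurd hℓp (by norm_num)
  · exact exists_primesOver_lt_pow 13 163 307 2 K (by norm_num) ord_163_13 (by norm_num)
  · exact absurd hℓp (by norm_num)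
  · exact absurd hℓp (by norm_num)
  · exact absurd hℓp (by norm_num)
  · exact exists_primesOver_lt_pow 13 167 307 2 K (by norm_num) ord_167_13 (by norm_num)
  · exact absurd hℓp (by norm_num)
  · exact absurd hℓp (by norm_num)
  · exact absurd hℓp (by norm_num)
  · exact absurd hℓp (by norm_num)
  · exact absurd hℓp (by norm_num)
  · exact exists_primesOver_lt_pow 13 173 307 2 K (by norm_num) ord_173_13 (by norm_num)
  · exact absurd hℓp (by norm_num)
  · exact absurd hℓp (by norm_num)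
  · exact absurd hℓp (by norm_num)
  · exact absurd hℓp (by norm_num)
  · exact absurd hℓp (by norm_num)
  · exact exists_primesOver_lt_pow 13 179 307 2 K (by norm_num) ord_179_13 (by norm_num)
  · exact absurd hℓp (by norm_num)
  · exact exists_primesOver_lt_pow 13 181 307 2 K (by norm_num) ord_181_13 (by norm_num)
  · exact absurd hℓp (by norm_num)
  · exact absurd hℓp (by norm_num)
  · exact absurd hℓp (by norm_num)
  · exact absurd hℓp (by norm_num)
  · exact absurd hℓp (by norm_num)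
  · exact absurd hℓp (by norm_num)
  · exact absurd hℓp (by norm_num)
  · exact absurd hℓp (by norm_num)
  · exact absurd hℓp (by norm_num)
  · exact exists_primesOver_lt_pow 13 191 307 2 K (by norm_num) ord_191_13 (by norm_num)
  · exact absurd hℓp (by norm_num)
  · exact exists_primesOver_lt_pow 13 193 307 2 K (by norm_num) ord_193_13 (by norm_num)
  · exact absurd hℓp (by norm_num)
  · exact absurd hℓp (by norm_num)
  · exact absurd hℓp (by norm_num)
  · exact exists_primesOver_lt_pow 13 197 307 2 K (by norm_num) ord_197_13 (by norm_num)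
  · exact absurd hℓp (by norm_num)
  · exact exists_primesOver_lt_pow 13 199 307 2 K (by norm_num) ord_199_13 (by norm_num)
  · exact absurd hℓp (by norm_num)
  · exact absurd hℓp (by norm_num)
  · exact absurd hℓp (by norm_num)
  · exact absurd hℓp (by norm_num)
  · exact absurd hℓp (by norm_num)
  · exact absurd hℓp (by norm_num)
  · exact absurd hℓp (by norm_num)
  · exact absurd hℓp (by norm_num)
  · exact absurd hℓp (by norm_num)
  · exact absurd hℓp (by norm_num)
  · exact absurd hℓp (by norm_num)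
  · exact exists_primesOver_lt_pow 13 211 307 2 K (by norm_num) ord_211_13 (by norm_num)
  · exact absurd hℓp (by norm_num)
  · exact absurd hℓp (by norm_num)
  · exact absurd hℓp (by norm_num)
  · exact absurd hℓp (by norm_num)
  · exact absurd hℓp (by norm_num)
  · exact absurd hℓp (by norm_num)
  · exact absurd hℓp (by norm_num)
  · exact absurd hℓp (by norm_num)
  · exact absurd hℓp (by norm_num)
  · exact absurd hℓp (by norm_num)
  · exact absurd hℓp (by norm_num)
  · exact exists_primesOver_lt_pow 13 223 307 2 K (by norm_num) ord_223_13 (by norm_num)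
  · exact absurd hℓp (by norm_num)
  · exact absurd hℓp (by norm_num)
  · exact absurd hℓp (by norm_num)
  · exact exists_primesOver_lt_pow 13 227 307 2 K (by norm_num) ord_227_13 (by norm_num)
  · exact absurd hℓp (by norm_num)
  · exact exists_primesOver_lt_pow 13 229 307 2 K (by norm_num) ord_229_13 (by norm_num)
  · exact absurd hℓp (by norm_num)
  · exact absurd hℓp (by norm_num)
  · exact absurd hℓp (by norm_num)
  · exact exists_primesOver_lt_pow 13 233 307 2 K (by norm_num) ord_233_13 (by norm_num)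
  · exact absurd hℓp (by norm_num)
  · exact absurd hℓp (by norm_num)
  · exact absurd hℓp (by norm_num)
  · exact absurd hℓp (by norm_num)
  · exact absurd hℓp (by norm_num)
  · exact exists_primesOver_lt_pow 13 239 307 2 K (by norm_num) ord_239_13 (by norm_num)
  · exact absurd hℓp (by norm_num)
  · exact exists_primesOver_lt_pow 13 241 307 2 K (by norm_num) ord_241_13 (by norm_num)
  · exact absurd hℓp (by norm_num)
  · exact absurd hℓp (by norm_num)
  · exact absurd hℓp (by norm_num)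
  · exact absurd hℓp (by norm_num)
  · exact absurd hℓp (by norm_num)
  · exact absurd hℓp (by norm_num)
  · exact absurd hℓp (by norm_num)
  · exact absurd hℓp (by norm_num)
  · exact absurd hℓp (by norm_num)
  · exact exists_primesOver_lt_pow 13 251 307 2 K (by norm_num) ord_251_13 (by norm_num)
  · exact absurd hℓp (by norm_num)
  · exact absurd hℓp (by norm_num)
  · exact absurd hℓp (by norm_num)
  · exact absurd hℓp (by norm_num)
  · exact absurd hℓp (by norm_num)
  · exact exists_primesOver_lt_pow 13 257 307 2 K (by norm_num) ord_257_13 (by norm_num)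
  · exact absurd hℓp (by norm_num)
  · exact absurd hℓp (by norm_num)
  · exact absurd hℓp (by norm_num)
  · exact absurd hℓp (by norm_num)
  · exact absurd hℓp (by norm_num)
  · exact exists_primesOver_lt_pow 13 263 307 2 K (by norm_num) ord_263_13 (by norm_num)
  · exact absurd hℓp (by norm_num)
  · exact absurd hℓp (by norm_num)
  · exact absurd hℓp (by norm_num)
  · exact absurd hℓp (by norm_num)
  · exact absurd hℓp (by norm_num)
  · exact exists_primesOver_lt_pow 13 269 307 2 K (by norm_num) ord_269_13 (by norm_num)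
  · exact absurd hℓp (by norm_num)
  · exact exists_primesOver_lt_pow 13 271 307 2 K (by norm_num) ord_271_13 (by norm_num)
  · exact absurd hℓp (by norm_num)
  · exact absurd hℓp (by norm_num)
  · exact absurd hℓp (by norm_num)
  · exact absurd hℓp (by norm_num)
  · exact absurd hℓp (by norm_num)
  · exact exists_primesOver_lt_pow 13 277 307 2 K (by norm_num) ord_277_13 (by norm_num)
  · exact absurd hℓp (by norm_num)
  · exact absurd hℓp (by norm_num)
  · exact absurd hℓp (by norm_num)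
  · exact exists_primesOver_lt_pow 13 281 307 2 K (by norm_num) ord_281_13 (by norm_num)
  · exact absurd hℓp (by norm_num)
  · exact exists_primesOver_lt_pow 13 283 307 2 K (by norm_num) ord_283_13 (by norm_num)
  · exact absurd hℓp (by norm_num)
  · exact absurd hℓp (by norm_num)
  · exact absurd hℓp (by norm_num)
  · exact absurd hℓp (by norm_num)
  · exact absurd hℓp (by norm_num)
  · exact absurd hℓp (by norm_num)
  · exact absurd hℓp (by norm_num)
  · exact absurd hℓp (by norm_num)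
  · exact absurd hℓp (by norm_num)
  · exact exists_primesOver_lt_pow 13 293 307 2 K (by norm_num) ord_293_13 (by norm_num)
  · exact absurd hℓp (by norm_num)
  · exact absurd hℓp (by norm_num)
  · exact absurd hℓp (by norm_num)
  · exact absurd hℓp (by norm_num)
  · exact absurd hℓp (by norm_num)
  · exact absurd hℓp (by norm_num)
  · exact absurd hℓp (by norm_num)
  · exact absurd hℓp (by norm_num)
  · exact absurd hℓp (by norm_num)
  · exact absurd hℓp (by norm_num)
  · exact absurd hℓp (by norm_num)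
  · exact absurd hℓp (by norm_num)
  · exact absurd hℓp (by norm_num)
  · exact exists_primesOver_lt_pow 13 307 307 2 K (by norm_num) ord_307_13 (by norm_num)

end Fermat.Agent.Kummer.ClassNumberOne
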