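/-
KUMMER project, package (D): the ring of integers of the `p`-th cyclotomic field is a principal
ideal domain for `p = 7, 11, 13`.  Thin wrapper around `PIDBasic`, `PIDEleven`, `PIDThirteen`.
-/
import Fermat.Agent.Kummer.Defs
import Fermat.Agent.Kummer.PIDBasic
import Fermat.Agent.Kummer.PIDEleven
import Fermat.Agent.Kummer.PIDThirteen

set_option autoImplicit false

namespace Fermat.Agent.Kummer

open NumberField

/-- (D) class number one. -/
theorem seven_pid (K : Type*) [Field K] [NumberField K] [IsCyclotomicExtension {7} ℚ K] :
    IsPrincipalIdealRing (𝓞 K) :=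
  ClassNumberOne.pid_seven K

theorem eleven_pid (K : Type*) [Field K] [NumberField K] [IsCyclotomicExtension {11} ℚ K] :
    IsPrincipalIdealRing (𝓞 K) :=
  ClassNumberOne.pid_eleven K

theorem thirteen_pid (K : Type*) [Field K] [NumberField K] [IsCyclotomicExtension {13} ℚ K] :
    IsPrincipalIdealRing (𝓞 K) :=
  ClassNumberOne.pid_thirteen K

end Fermat.Agent.Kummer
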