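/-
KUMMER project: assembly.  Fermat's Last Theorem for a prime exponent `p ≥ 5` such that the ring of
integers of the `p`-th cyclotomic field is a principal ideal domain, and the exponents 5, 7, 11, 13.
-/
import Fermat.Agent.Kummer.CaseI
import Fermat.Agent.Kummer.CaseII
import Fermat.Agent.Kummer.KummerLemma
import Fermat.Agent.Kummer.PID
import Fermat.Prelude.Def_FLTPrelim_FreyPackage

set_option autoImplicit false

namespace Fermat.Agent.Kummer

open NumberField

/-- Integer form, with `a`, `b` coprime: `a ^ p + b ^ p ≠ c ^ p` for `c ≠ 0`. -/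
theorem flt_int_of_pid (p : ℕ) [Fact p.Prime] (hp5 : 5 ≤ p) (K : Type*) [Field K] [NumberField K]
    [IsCyclotomicExtension {p} ℚ K] [IsPrincipalIdealRing (𝓞 K)] {a b c : ℤ}
    (ha : a ≠ 0) (hb : b ≠ 0) (hc : c ≠ 0) (hab : IsCoprime a b) :
    a ^ p + b ^ p ≠ c ^ p := by
  have hpp : Nat.Prime p := Fact.out
  have hpZ : Prime (p : ℤ) := Nat.prime_iff_prime_int.mp hpp
  have hodd : Odd p := hpp.odd_of_ne_two (by omega)
  have hK : KummerLemmaHolds p K := kummerLemmaHolds p hp5 K
  intro h
  by_cases hdvd : (p : ℤ) ∣ a * b * c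
  · rcases hpZ.dvd_or_dvd hdvd with hab' | hpc
    · rcases hpZ.dvd_or_dvd hab' with hpa | hpb
      · -- `c ^ p + (-b) ^ p = a ^ p`
        have hcb : IsCoprime c (-b) := by
          have hbc : IsCoprime b c := by
            have h3 : b ^ p + a ^ p + (-c) ^ p = 0 := by
              rw [hodd.neg_pow]; linarith
            have hgcd : Finset.gcd {b, a, -c} id = 1 := by
              have hd : Finset.gcd {b, a, -c} id ∣ 1 := by
                obtain ⟨u, v, huv⟩ := hab
                rw [← huv]
                exact dvd_add (Dvd.dvd.mul_left (Finset.gcd_dvd (by simp)) u)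
                  (Dvd.dvd.mul_left (Finset.gcd_dvd (by simp)) v)
              have hn : normalize (Finset.gcd {b, a, -c} id) = Finset.gcd {b, a, -c} id :=
                Finset.normalize_gcd
              rw [← hn]
              exact normalize_eq_one.mpr (isUnit_of_dvd_one hd)
            have hbnc : IsCoprime b (-c) := by
              have h3' : b ^ p + (-c) ^ p + a ^ p = 0 := by linarith
              have hgcd' : Finset.gcd {b, -c, a} id = 1 := by
                rw [← hgcd]; congr 1; ext x; simp; tauto
              exact isCoprime_of_gcd_eq_one_of_FLT hgcd' h3'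
            simpa using hbnc.neg_right
          exact hbc.symm.neg_right
        refine caseII p hp5 K hK hcb ha hpa ?_
        rw [hodd.neg_pow]; linarith
      · -- `c ^ p + (-a) ^ p = b ^ p`
        have hca : IsCoprime c (-a) := by
          have h3 : a ^ p + (-c) ^ p + b ^ p = 0 := by
            rw [hodd.neg_pow]; linarith
          have hgcd : Finset.gcd {a, -c, b} id = 1 := by
            have hd : Finset.gcd {a, -c, b} id ∣ 1 := by
              obtain ⟨u, v, huv⟩ := hab
              rw [← huv]
              exact dvd_add (Dvd.dvd.mul_left (Finset.gcd_dvd (by simp)) u)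
                (Dvd.dvd.mul_left (Finset.gcd_dvd (by simp)) v)
            have hn : normalize (Finset.gcd {a, -c, b} id) = Finset.gcd {a, -c, b} id :=
              Finset.normalize_gcd
            rw [← hn]
            exact normalize_eq_one.mpr (isUnit_of_dvd_one hd)
          have hanc : IsCoprime a (-c) := isCoprime_of_gcd_eq_one_of_FLT hgcd h3
          have hac : IsCoprime a c := by simpa using hanc.neg_right
          exact hac.symm.neg_right
        refine caseII p hp5 K hK hca hb hpb ?_
        rw [hodd.neg_pow]; linarith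
    · exact caseII p hp5 K hK hab hc hpc h
  · exact caseI p hp5 K hab hdvd h

/-- Fermat's Last Theorem for a prime exponent `p ≥ 5` such that the ring of integers of the `p`-th
cyclotomic field is a principal ideal domain. -/
theorem flt_of_pid (p : ℕ) [Fact p.Prime] (hp5 : 5 ≤ p) (K : Type*) [Field K] [NumberField K]
    [IsCyclotomicExtension {p} ℚ K] [IsPrincipalIdealRing (𝓞 K)] : FermatLastTheoremFor p := by
  rw [fermatLastTheoremFor_iff_int]
  refine fermatLastTheoremWith_of_fermatLastTheoremWith_coprime (fun a b c ha hb hc hgcd h ↦ ?_)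
  have hpp : Nat.Prime p := Fact.out
  have hodd : Odd p := hpp.odd_of_ne_two (by omega)
  have h3 : a ^ p + b ^ p + (-c) ^ p = 0 := by
    rw [hodd.neg_pow]; linarith
  have hgcd' : Finset.gcd {a, b, -c} id = 1 := by
    have hd : Finset.gcd {a, b, -c} id ∣ Finset.gcd {a, b, c} id := by
      refine Finset.dvd_gcd (fun x hx ↦ ?_)
      simp only [Finset.mem_insert, Finset.mem_singleton] at hx
      rcases hx with rfl | rfl | rfl
      · exact Finset.gcd_dvd (by simp)
      · exact Finset.gcd_dvd (by simp)
      · have : Finset.gcd {a, b, -x} id ∣ -x := Finset.gcd_dvd (by simp)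
        simpa using this
    rw [hgcd] at hd
    have hn : normalize (Finset.gcd {a, b, -c} id) = Finset.gcd {a, b, -c} id :=
      Finset.normalize_gcd
    rw [← hn]
    exact normalize_eq_one.mpr (isUnit_of_dvd_one hd)
  exact flt_int_of_pid p hp5 K ha hb hc (isCoprime_of_gcd_eq_one_of_FLT hgcd' h3) h

instance fact_prime_seven : Fact (Nat.Prime 7) := ⟨by norm_num⟩
instance fact_prime_eleven : Fact (Nat.Prime 11) := ⟨by norm_num⟩
instance fact_prime_thirteen : Fact (Nat.Prime 13) := ⟨by norm_num⟩

/-- A Frey package with prime `p` contradicts Fermat's Last Theorem for the exponent `p`. -/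
theorem false_of_freyPackage (P : FreyPackage) (h : FermatLastTheoremFor P.p) : False :=
  fermatLastTheoremFor_iff_int.mp h P.a P.b P.c P.ha0 P.hb0 P.hc0 P.hFLT

theorem flt_five : FermatLastTheoremFor 5 :=
  haveI : Fact (Nat.Prime 5) := ⟨Nat.prime_five⟩
  haveI : IsCyclotomicExtension {5} ℚ (CyclotomicField 5 ℚ) :=
    CyclotomicField.isCyclotomicExtension 5 ℚ
  haveI := IsCyclotomicExtension.Rat.five_pid (CyclotomicField 5 ℚ)
  flt_of_pid 5 le_rfl (CyclotomicField 5 ℚ)

theorem flt_seven : FermatLastTheoremFor 7 :=
  haveI : IsCyclotomicExtension {7} ℚ (CyclotomicField 7 ℚ) :=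
    CyclotomicField.isCyclotomicExtension 7 ℚ
  haveI := seven_pid (CyclotomicField 7 ℚ)
  flt_of_pid 7 (by norm_num) (CyclotomicField 7 ℚ)

theorem flt_eleven : FermatLastTheoremFor 11 :=
  haveI : IsCyclotomicExtension {11} ℚ (CyclotomicField 11 ℚ) :=
    CyclotomicField.isCyclotomicExtension 11 ℚ
  haveI := eleven_pid (CyclotomicField 11 ℚ)
  flt_of_pid 11 (by norm_num) (CyclotomicField 11 ℚ)

theorem flt_thirteen : FermatLastTheoremFor 13 :=
  haveI : IsCyclotomicExtension {13} ℚ (CyclotomicField 13 ℚ) :=
    CyclotomicField.isCyclotomicExtension 13 ℚ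
  haveI := thirteen_pid (CyclotomicField 13 ℚ)
  flt_of_pid 13 (by norm_num) (CyclotomicField 13 ℚ)

end Fermat.Agent.Kummer
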